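/-
S55 (Poitou–Tate), layer G, leaf G-SIND (helper601), sub-leaves V and E (helper241).
Generic lemma: in an extension of Dedekind domains, if the upper valuation takes the value
`exp (-1)` on an element of the lower field, then the upper valuation restricts to the lower one.
-/
import Mathlib

set_option autoImplicit false
set_option linter.unusedSectionVars false
set_option linter.style.haveILetI false

open IsDedekindDomain WithZero

namespace Fermat.Agent.S55.G.SIndH601.H241

section AKLB

variable {A K : Type*} (L : Type*) {B : Type*}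
variable [CommRing A] [IsDedekindDomain A] [CommRing B] [IsDedekindDomain B] [Algebra A B]
  [Module.IsTorsionFree A B]
variable [Field K] [Field L] [Algebra K L]
variable [Algebra A K] [IsFractionRing A K] [Algebra A L] [IsScalarTower A K L]
variable [Algebra B L] [IsFractionRing B L] [IsScalarTower A B L]
variable (v : HeightOneSpectrum A) (w : HeightOneSpectrum B) [w.asIdeal.LiesOver v.asIdeal]

/-- If some element of `K` is a uniformiser of `w`, the ramification index is `1`. -/
theorem ramIdx_eq_one_of_uniformizer (x : K)
    (hx : w.valuation L (algebraMap K L x) = exp (-1 : ℤ)) :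
    v.asIdeal.ramificationIdx' w.asIdeal = 1 := by
  have h := HeightOneSpectrum.valuation_liesOver L v w x
  rw [hx] at h
  have hv0 : v.valuation K x ≠ 0 := by
    intro h0
    rw [h0] at h
    rcases Nat.eq_zero_or_pos (v.asIdeal.ramificationIdx' w.asIdeal) with he | he
    · rw [he, pow_zero] at h
      have : (1 : ℤᵐ⁰) = exp (0 : ℤ) := rfl
      rw [this, exp_inj] at h
      omega
    · rw [zero_pow he.ne'] at h
      exact exp_ne_zero h.symm
  obtain ⟨n, hn⟩ : ∃ n : ℤ, v.valuation K x = exp n := ⟨log (v.valuation K x), (exp_log hv0).symm⟩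
  rw [hn, ← exp_nsmul, exp_inj] at h
  have h2 : (v.asIdeal.ramificationIdx' w.asIdeal : ℤ) * n = -1 := by
    rw [← h]; simp
  have h3 : ((v.asIdeal.ramificationIdx' w.asIdeal : ℕ) : ℤ) ∣ 1 :=
    ⟨-n, by rw [mul_neg, h2, neg_neg]⟩
  exact_mod_cast Int.eq_one_of_dvd_one (by positivity) h3

/-- If some element of `K` is a uniformiser of `w`, then `w` restricts to `v` on `K`. -/
theorem valuation_eq_of_uniformizer (x : K)
    (hx : w.valuation L (algebraMap K L x) = exp (-1 : ℤ)) (y : K) :
    w.valuation L (algebraMap K L y) = v.valuation K y := by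
  rw [← HeightOneSpectrum.valuation_liesOver L v w y, ramIdx_eq_one_of_uniformizer L v w x hx,
    pow_one]

end AKLB

end Fermat.Agent.S55.G.SIndH601.H241

namespace Fermat.Agent.S55.G.SIndH601.H241

section DVR

variable {A K K' : Type*} [CommRing A] [IsDedekindDomain A] [Field K] [Algebra A K]
  [IsFractionRing A K] [Field K']

/-- Let `A` be a Dedekind domain with fraction field `K`, `v` a prime of `A`, and `ι : K → K'` a
field embedding into a field `K'` with a discrete valuation subring `B` such that `ι A ⊆ B`,
`v = ι⁻¹ (𝔪_B) ∩ A` and some `ι x` is a uniformiser of `B`.  Then the normalised valuation of `B`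
restricts along `ι` to the `v`-adic valuation of `K`. -/
theorem valuation_map_eq (v : HeightOneSpectrum A) (B : ValuationSubring K')
    [IsDiscreteValuationRing B] (ι : K →+* K')
    (h1 : ∀ a : A, ι (algebraMap A K a) ∈ B)
    (h2 : ∀ a : A, a ∈ v.asIdeal ↔ ι (algebraMap A K a) ∈ B.nonunits)
    (x : K)
    (hx : (IsDiscreteValuationRing.maximalIdeal B).valuation K' (ι x) = exp (-1 : ℤ)) (y : K) :
    (IsDiscreteValuationRing.maximalIdeal B).valuation K' (ι y) = v.valuation K y := by
  letI : Algebra K K' := ι.toAlgebra
  let f : A →+* B := (ι.comp (algebraMap A K)).codRestrict B.toSubring h1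
  letI : Algebra A B := f.toAlgebra
  letI : Algebra A K' := (ι.comp (algebraMap A K)).toAlgebra
  haveI : IsScalarTower A K K' := IsScalarTower.of_algebraMap_eq (fun _ => rfl)
  haveI : IsScalarTower A B K' := IsScalarTower.of_algebraMap_eq (fun _ => rfl)
  have hinj : Function.Injective (algebraMap A B) := by
    intro a b hab
    have h3 : ι (algebraMap A K a) = ι (algebraMap A K b) := congrArg Subtype.val hab
    exact IsFractionRing.injective A K (ι.injective h3)
  haveI : Module.IsTorsionFree A B := Module.isTorsionFree_iff_algebraMap_injective.2 hinj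
  haveI : (IsDiscreteValuationRing.maximalIdeal B).asIdeal.LiesOver v.asIdeal := by
    refine ⟨Ideal.ext fun a => ?_⟩
    rw [Ideal.under_def, Ideal.mem_comap, h2 a,
      ValuationSubring.mem_nonunits_iff_exists_mem_maximalIdeal]
    constructor
    · rintro ⟨ha, hm⟩
      exact hm
    · intro hm
      exact ⟨h1 a, hm⟩
  exact valuation_eq_of_uniformizer K' v (IsDiscreteValuationRing.maximalIdeal B) x hx y

end DVR

section Equiv

variable {K K' : Type*} [Field K] [Field K']

omit [Field K'] in
lemma mem_nonunits_iff_inv_not_mem (A : ValuationSubring K) (x : K) :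
    x ∈ A.nonunits ↔ x = 0 ∨ x⁻¹ ∉ A := by
  rw [ValuationSubring.mem_nonunits_iff]
  rcases eq_or_ne x 0 with rfl | hx0
  · simp
  · have hA : 0 < A.valuation x := zero_lt_iff.2 ((Valuation.ne_zero_iff _).2 hx0)
    rw [← ValuationSubring.valuation_le_one_iff, map_inv₀, inv_le_one₀ hA, not_le]
    simp [hx0]

/-- A field isomorphism mapping a discrete valuation subring onto another one preserves the
normalised valuations. -/
theorem valuation_equiv_eq (A : ValuationSubring K) [IsDiscreteValuationRing A]
    (B : ValuationSubring K') [IsDiscreteValuationRing B] (e : K ≃+* K')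
    (h : ∀ x : K, e x ∈ B ↔ x ∈ A) (y : K) :
    (IsDiscreteValuationRing.maximalIdeal B).valuation K' (e y) =
      (IsDiscreteValuationRing.maximalIdeal A).valuation K y := by
  obtain ⟨π, hπ⟩ := (IsDiscreteValuationRing.maximalIdeal B).valuation_exists_uniformizer K'
  have hnon : ∀ x : K, e x ∈ B.nonunits ↔ x ∈ A.nonunits := by
    intro x
    rw [mem_nonunits_iff_inv_not_mem, mem_nonunits_iff_inv_not_mem, ← map_inv₀, h,
      EmbeddingLike.map_eq_zero_iff]
  refine valuation_map_eq (IsDiscreteValuationRing.maximalIdeal A) B (e : K →+* K')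
    (fun a => (h _).2 a.2) (fun a => ?_) (e.symm π) (by simpa using hπ) y
  have h3 : (e : K →+* K') (algebraMap A K a) = e (a : K) := rfl
  rw [h3, hnon, ValuationSubring.mem_nonunits_iff_exists_mem_maximalIdeal]
  constructor
  · intro hm
    exact ⟨a.2, hm⟩
  · rintro ⟨ha, hm⟩
    exact hm

end Equiv

end Fermat.Agent.S55.G.SIndH601.H241
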