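/-
S55 (Poitou–Tate), layer G, leaf G-SIND (helper601), sub-leaves V and E (helper241).
The ring of integers `PL0H713.intRing S L 𝔪` of `L_𝔪`: a description which does not depend on
the choice `PL0H713.primeOf`, and basic facts (`ℤ_q`, `𝓞 L` map into it; `q` is a non-unit).
-/
import Fermat.Agent.S55.G.SIndH601.Spec
import Fermat.Agent.S55.G.SIndH601.H241.ValGen

set_option autoImplicit false
set_option linter.unusedSectionVars false
set_option linter.style.haveILetI false

open scoped NumberField TensorProduct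
open IsDedekindDomain WithZero

noncomputable section

namespace Fermat.Agent.S55.G.SIndH601.H241

open Fermat.Agent.S55.G

variable (S : Finset Nat.Primes) (L : Type) [Field L] [NumberField L]

/-- `ℤ_q` for a bundled prime `q`. -/
abbrev Zq (q : Nat.Primes) : Type := @PadicInt (q : ℕ) ⟨q.2⟩

/-- The prime below a place is unique. -/
lemma eq_primeOf (𝔪 : SPlace S L) (q : S)
    (hq : LocField.ofQS S 𝔪 (PL0H713.single S q 1) = 1) : q = PL0H713.primeOf S L 𝔪 := by
  by_contra hne
  have h0 : PL0H713.single S q 1 * PL0H713.single S (PL0H713.primeOf S L 𝔪) 1 = 0 := by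
    refine PL0H713.QS_ext S fun q' => ?_
    rw [map_mul, Pi.mul_apply, map_zero, Pi.zero_apply]
    by_cases h : q' = q
    · subst h
      rw [PL0H713.single_apply_ne S _ q' hne, mul_zero]
    · rw [PL0H713.single_apply_ne S q q' h, zero_mul]
  have h1 := congrArg (LocField.ofQS S 𝔪) h0
  rw [map_mul, hq, PL0H713.ofQS_single_primeOf, map_zero, one_mul] at h1
  exact one_ne_zero h1

/-- The embedding `ℚ_q → L_𝔪` for a prime `q` below `𝔪`. -/
def ofQqOf (𝔪 : SPlace S L) (q : S) (hq : LocField.ofQS S 𝔪 (PL0H713.single S q 1) = 1) :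
    Qq q.1 →+* LocField S 𝔪 where
  toFun x := LocField.ofQS S 𝔪 (PL0H713.single S q x)
  map_one' := hq
  map_mul' x y := by rw [PL0H713.single_mul, map_mul]
  map_zero' := by rw [PL0H713.single_zero, map_zero]
  map_add' x y := by rw [PL0H713.single_add, map_add]

lemma ofQqOf_apply (𝔪 : SPlace S L) (q : S)
    (hq : LocField.ofQS S 𝔪 (PL0H713.single S q 1) = 1) (x : Qq q.1) :
    ofQqOf S L 𝔪 q hq x = LocField.ofQS S 𝔪 (PL0H713.single S q x) := rfl

/-- The structure map `ℤ_q → L_𝔪` for a prime `q` below `𝔪`. -/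
def ofZqOf (𝔪 : SPlace S L) (q : S) (hq : LocField.ofQS S 𝔪 (PL0H713.single S q 1) = 1) :
    Zq q.1 →+* LocField S 𝔪 :=
  (ofQqOf S L 𝔪 q hq).comp (algebraMap (Zq q.1) (Qq q.1))

/-- `x ∈ intRing` iff `x` is integral over `ℤ_q`, for ANY prime `q` below `𝔪`. -/
lemma mem_intRing_iff (𝔪 : SPlace S L) (q : S)
    (hq : LocField.ofQS S 𝔪 (PL0H713.single S q 1) = 1) (x : LocField S 𝔪) :
    x ∈ PL0H713.intRing S L 𝔪 ↔ (ofZqOf S L 𝔪 q hq).IsIntegralElem x := by
  obtain rfl : q = PL0H713.primeOf S L 𝔪 := eq_primeOf S L 𝔪 q hq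
  exact Iff.rfl

end Fermat.Agent.S55.G.SIndH601.H241
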