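/-
S55 (Poitou–Tate), layer G, leaf G-SIND (helper601), sub-leaf V (helper241):
`ordDiag : OrdDiagSpec`, the valuation comparison `ord_𝔪 (x ⊗ 1) = ord_{β 𝔪} (x)`.

The integrality clause of a dictionary says that the maximal ideal of the ring of integers of
`L_𝔪` lies over `β 𝔪`; by Mathlib's `valuation_liesOver` the normalised valuation of `L_𝔪`
restricts to the `e`-th power of the `β 𝔪`-adic valuation.  Since `L` is dense in `L_𝔪`
(`ℚ` is dense in `ℚ_q`), `L` contains a uniformiser of `L_𝔪`, whence `e = 1`.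
-/
import Fermat.Agent.S55.G.SIndH601.H241.IntRing

set_option autoImplicit false
set_option linter.unusedSectionVars false
set_option linter.style.haveILetI false

open scoped NumberField TensorProduct
open IsDedekindDomain WithZero

noncomputable section

namespace Fermat.Agent.S55.G.SIndH601.H241

open Fermat.Agent.S55.G

/-! ## `p`-adic preliminaries -/

section Padic

variable (p : ℕ) [hp : Fact p.Prime]

/-- `ℚ` is dense in `ℚ_p`, algebraically: every `z` is congruent to a rational modulo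
`p ^ M ℤ_p`. -/
lemma exists_rat_approx (z : ℚ_[p]) (M : ℕ) :
    ∃ (r : ℚ) (u : ℤ_[p]), z - (r : ℚ_[p]) = (p : ℚ_[p]) ^ M * (u : ℚ_[p]) := by
  have hp0 : (0 : ℝ) < p := by exact_mod_cast hp.out.pos
  have hε : (0 : ℝ) < ((p : ℝ) ^ M)⁻¹ := inv_pos.2 (pow_pos hp0 M)
  obtain ⟨r, hr⟩ := Padic.rat_dense p z hε
  have hpM : (p : ℚ_[p]) ^ M ≠ 0 := pow_ne_zero _ (by exact_mod_cast hp.out.ne_zero)
  have hnorm : ‖(z - (r : ℚ_[p])) / (p : ℚ_[p]) ^ M‖ ≤ 1 := by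
    rw [norm_div, norm_pow, Padic.norm_p, inv_pow, div_inv_eq_mul]
    have := mul_lt_mul_of_pos_right hr (pow_pos hp0 M)
    rw [inv_mul_cancel₀ (pow_pos hp0 M).ne'] at this
    exact this.le
  refine ⟨r, ⟨(z - (r : ℚ_[p])) / (p : ℚ_[p]) ^ M, hnorm⟩, ?_⟩
  change _ = (p : ℚ_[p]) ^ M * ((z - (r : ℚ_[p])) / (p : ℚ_[p]) ^ M)
  rw [mul_div_cancel₀ _ hpM]

/-- `p⁻¹` is not integral over `ℤ_p`. -/
lemma not_isIntegral_inv_prime : ¬ IsIntegral ℤ_[p] ((p : ℚ_[p])⁻¹) := by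
  intro h
  obtain ⟨y, hy⟩ := IsIntegrallyClosed.isIntegral_iff.1 h
  have h1 : ‖(p : ℚ_[p])⁻¹‖ ≤ 1 := by
    rw [← hy]
    exact PadicInt.norm_le_one y
  rw [norm_inv, Padic.norm_p, inv_inv] at h1
  have h2 : (1 : ℝ) < p := by exact_mod_cast hp.out.one_lt
  linarith

end Padic

variable (S : Finset Nat.Primes) (L : Type) [Field L] [NumberField L]

/-! ## Integral elements of `L_𝔪` -/

/-- The image of `ℤ_q` lies in the ring of integers. -/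
lemma ofQq_mem_intRing (𝔪 : SPlace S L) (u : Zq (PL0H713.primeOf S L 𝔪).1) :
    PL0H713.ofQq S L 𝔪 (u : Qq (PL0H713.primeOf S L 𝔪).1) ∈ PL0H713.intRing S L 𝔪 := by
  rw [mem_intRing_iff S L 𝔪 (PL0H713.primeOf S L 𝔪) (PL0H713.ofQS_single_primeOf S L 𝔪)]
  exact RingHom.isIntegralElem_map _

/-- The image of `𝓞 L` lies in the ring of integers. -/
lemma toLoc_mem_intRing (𝔪 : SPlace S L) (a : 𝓞 L) :
    toLoc S 𝔪 (a : L) ∈ PL0H713.intRing S L 𝔪 := by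
  rw [mem_intRing_iff S L 𝔪 (PL0H713.primeOf S L 𝔪) (PL0H713.ofQS_single_primeOf S L 𝔪)]
  obtain ⟨P, hP, hPa⟩ := NumberField.RingOfIntegers.isIntegral_coe a
  refine ⟨P.map (Int.castRingHom _), hP.map _, ?_⟩
  rw [Polynomial.eval₂_map]
  have h1 : (ofZqOf S L 𝔪 (PL0H713.primeOf S L 𝔪) (PL0H713.ofQS_single_primeOf S L 𝔪)).comp
      (Int.castRingHom _) = (toLoc S 𝔪).comp (algebraMap ℤ L) := RingHom.ext_int _ _
  rw [h1, ← Polynomial.hom_eval₂, hPa, map_zero]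

/-- `q` is a non-unit of the ring of integers of `L_𝔪`. -/
lemma locVal_prime_lt_one (𝔪 : SPlace S L) :
    locVal S L 𝔪 (PL0H713.ofQq S L 𝔪 (((PL0H713.primeOf S L 𝔪).1 : ℕ) :
      Qq (PL0H713.primeOf S L 𝔪).1)) < 1 := by
  haveI : Fact (Nat.Prime ((PL0H713.primeOf S L 𝔪).1 : ℕ)) := ⟨(PL0H713.primeOf S L 𝔪).1.2⟩
  rw [locVal_lt_one_iff, mem_nonunits_iff_inv_not_mem]
  right
  intro hmem
  rw [← map_inv₀,
    mem_intRing_iff S L 𝔪 (PL0H713.primeOf S L 𝔪) (PL0H713.ofQS_single_primeOf S L 𝔪)] at hmem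
  obtain ⟨P, hP, hPa⟩ := hmem
  refine not_isIntegral_inv_prime ((PL0H713.primeOf S L 𝔪).1 : ℕ) ⟨P, hP, ?_⟩
  have h := Polynomial.hom_eval₂ P (algebraMap (Zq (PL0H713.primeOf S L 𝔪).1)
    (Qq (PL0H713.primeOf S L 𝔪).1))
    (ofQqOf S L 𝔪 (PL0H713.primeOf S L 𝔪) (PL0H713.ofQS_single_primeOf S L 𝔪))
    ((((PL0H713.primeOf S L 𝔪).1 : ℕ) : Qq (PL0H713.primeOf S L 𝔪).1))⁻¹
  have h2 : ofQqOf S L 𝔪 (PL0H713.primeOf S L 𝔪) (PL0H713.ofQS_single_primeOf S L 𝔪)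
      (Polynomial.eval₂ (algebraMap (Zq (PL0H713.primeOf S L 𝔪).1)
        (Qq (PL0H713.primeOf S L 𝔪).1))
        ((((PL0H713.primeOf S L 𝔪).1 : ℕ) : Qq (PL0H713.primeOf S L 𝔪).1))⁻¹ P) = 0 := by
    rw [h]
    exact hPa
  exact (map_eq_zero _).1 h2

/-! ## Density of `L` in `L_𝔪` -/

/-- `ℚ` is dense in `ℚ_q ⊆ L_𝔪` for the valuation of `L_𝔪`. -/
lemma exists_rat_locVal_lt (𝔪 : SPlace S L) (z : Qq (PL0H713.primeOf S L 𝔪).1) (δ : ℤᵐ⁰)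
    (hδ : δ ≠ 0) :
    ∃ c : ℚ, locVal S L 𝔪 (PL0H713.ofQq S L 𝔪 (z - (c : Qq (PL0H713.primeOf S L 𝔪).1))) < δ := by
  haveI : Fact (Nat.Prime ((PL0H713.primeOf S L 𝔪).1 : ℕ)) := ⟨(PL0H713.primeOf S L 𝔪).1.2⟩
  obtain ⟨M, hM⟩ := exists_pow_lt₀ (locVal_prime_lt_one S L 𝔪) (Units.mk0 δ hδ)
  obtain ⟨c, u, hcu⟩ := exists_rat_approx ((PL0H713.primeOf S L 𝔪).1 : ℕ) z M
  refine ⟨c, lt_of_le_of_lt ?_ hM⟩
  rw [hcu, map_mul, map_mul, map_pow, map_pow]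
  have hu : locVal S L 𝔪 (PL0H713.ofQq S L 𝔪 (u : Qq (PL0H713.primeOf S L 𝔪).1)) ≤ 1 :=
    (locVal_le_one_iff S L 𝔪 _).2 (ofQq_mem_intRing S L 𝔪 u)
  exact mul_le_of_le_one_right' hu

/-- `L` is dense in `L_𝔪`. -/
lemma exists_toLoc_locVal_lt (𝔪 : SPlace S L) (ξ : LocField S 𝔪) (γ : ℤᵐ⁰) (hγ : γ ≠ 0) :
    ∃ x : L, locVal S L 𝔪 (ξ - toLoc S 𝔪 x) < γ := by
  obtain ⟨a, rfl⟩ := LocField.mk_surjective S 𝔪 ξ
  induction a using TensorProduct.induction_on with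
  | zero =>
    refine ⟨0, ?_⟩
    rw [map_zero, map_zero, sub_zero, map_zero]
    exact zero_lt_iff.2 hγ
  | tmul l y =>
    rw [PL0H713.mk_tmul, PL0H713.ofQS_eq]
    rcases eq_or_ne l 0 with rfl | hl
    · refine ⟨0, ?_⟩
      rw [map_zero, zero_mul, sub_zero, map_zero]
      exact zero_lt_iff.2 hγ
    · have ht : locVal S L 𝔪 (toLoc S 𝔪 l) ≠ 0 :=
        (Valuation.ne_zero_iff _).2 ((map_ne_zero _).2 hl)
      obtain ⟨c, hc⟩ := exists_rat_locVal_lt S L 𝔪 (QS.toPi S y (PL0H713.primeOf S L 𝔪))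
        ((locVal S L 𝔪 (toLoc S 𝔪 l))⁻¹ * γ) (mul_ne_zero (inv_ne_zero ht) hγ)
      refine ⟨algebraMap ℚ L c * l, ?_⟩
      have h1 : toLoc S 𝔪 l * PL0H713.ofQq S L 𝔪 (QS.toPi S y (PL0H713.primeOf S L 𝔪)) -
          toLoc S 𝔪 (algebraMap ℚ L c * l) =
          toLoc S 𝔪 l * PL0H713.ofQq S L 𝔪 (QS.toPi S y (PL0H713.primeOf S L 𝔪) -
            (c : Qq (PL0H713.primeOf S L 𝔪).1)) := by
        rw [map_mul, PL0H713.toLoc_algebraMap, map_sub, eq_ratCast]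
        ring
      rw [h1, map_mul]
      calc locVal S L 𝔪 (toLoc S 𝔪 l) * locVal S L 𝔪 (PL0H713.ofQq S L 𝔪
            (QS.toPi S y (PL0H713.primeOf S L 𝔪) - (c : Qq (PL0H713.primeOf S L 𝔪).1)))
          < locVal S L 𝔪 (toLoc S 𝔪 l) * ((locVal S L 𝔪 (toLoc S 𝔪 l))⁻¹ * γ) :=
            mul_lt_mul_of_pos_left hc (zero_lt_iff.2 ht)
        _ = γ := mul_inv_cancel_left₀ ht γ
  | add a b ha hb =>
    obtain ⟨x, hx⟩ := ha
    obtain ⟨x', hx'⟩ := hb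
    refine ⟨x + x', ?_⟩
    have h1 : LocField.mk S 𝔪 (a + b) - toLoc S 𝔪 (x + x') =
        (LocField.mk S 𝔪 a - toLoc S 𝔪 x) + (LocField.mk S 𝔪 b - toLoc S 𝔪 x') := by
      rw [map_add, map_add]
      ring
    rw [h1]
    exact lt_of_le_of_lt (Valuation.map_add _ _ _) (max_lt hx hx')

/-- `L` contains a uniformiser of `L_𝔪`. -/
lemma exists_toLoc_uniformizer (𝔪 : SPlace S L) :
    ∃ x : L, locVal S L 𝔪 (toLoc S 𝔪 x) = exp (-1 : ℤ) := by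
  haveI := isDVR_intRing S L 𝔪
  obtain ⟨π, hπ⟩ := (IsDiscreteValuationRing.maximalIdeal
    (PL0H713.intRing S L 𝔪)).valuation_exists_uniformizer (LocField S 𝔪)
  have hπ' : locVal S L 𝔪 π = exp (-1 : ℤ) := hπ
  obtain ⟨x, hx⟩ := exists_toLoc_locVal_lt S L 𝔪 π (exp (-1 : ℤ)) exp_ne_zero
  refine ⟨x, ?_⟩
  rw [← hπ'] at hx
  have h1 : toLoc S 𝔪 x = π - (π - toLoc S 𝔪 x) := by ring
  rw [h1, Valuation.map_sub_eq_of_lt_left _ hx, hπ']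

/-! ## The valuation comparison -/

/-- For a dictionary `β`, the normalised valuation of `L_𝔪` restricts to the `β 𝔪`-adic
valuation of `L`. -/
theorem locVal_toLoc (β : SPlace S L → HeightOneSpectrum (𝓞 L)) (hβ : IsDict S L β)
    (𝔪 : SPlace S L) (y : L) :
    locVal S L 𝔪 (toLoc S 𝔪 y) = (β 𝔪).valuation L y := by
  haveI := isDVR_intRing S L 𝔪
  obtain ⟨x, hx⟩ := exists_toLoc_uniformizer S L 𝔪
  exact valuation_map_eq (β 𝔪) (PL0H713.intRing S L 𝔪) (toLoc S 𝔪)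
    (fun a => toLoc_mem_intRing S L 𝔪 a) (fun a => hβ.integral 𝔪 a) x hx y

/-- **G-SIND-V.** -/
theorem ordDiag : OrdDiagSpec := by
  intro S L _ _ β hβ 𝔪 x
  rw [placeOrd_apply, ordAt_apply, coe_unitsDiag_apply, ← locVal_toLoc S L β hβ 𝔪]
  rfl

end Fermat.Agent.S55.G.SIndH601.H241
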