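/-
S55 (Poitou–Tate), layer G, leaf G-SIND (helper601), sub-leaf E (helper241):
`ordEquiv : OrdEquivSpec`, Galois invariance of the order maps
`ord_{g 𝔪} (g j) = ord_𝔪 (j)`.
-/
import Fermat.Agent.S55.G.SIndH601.H241.IntRing

set_option autoImplicit false
set_option linter.unusedSectionVars false
set_option linter.style.haveILetI false

open scoped NumberField TensorProduct
open IsDedekindDomain WithZero

noncomputable section

namespace Fermat.Agent.S55.G.SIndH601.H241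

open Fermat.Agent.S55.G

variable (S : Finset Nat.Primes) (G L : Type) [Group G] [Field L] [NumberField L]
  [MulSemiringAction G L]

/-- The isomorphism `L_𝔪 ≃ L_{g 𝔪}` induced by `g ⊗ 1`. -/
def locIso (g : G) (𝔪 : SPlace S L) : LocField S 𝔪 ≃+* LocField S (sPlaceSMul S G g 𝔪) :=
  Ideal.quotientEquiv 𝔪.asIdeal (sPlaceSMul S G g 𝔪).asIdeal (asRingAut G S L g) rfl

lemma locIso_mk (g : G) (𝔪 : SPlace S L) (x : AS S L) :
    locIso S G L g 𝔪 (LocField.mk S 𝔪 x) =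
      LocField.mk S (sPlaceSMul S G g 𝔪) (asAut S G L g x) := rfl

lemma locIso_ofQS (g : G) (𝔪 : SPlace S L) (y : QS S) :
    locIso S G L g 𝔪 (LocField.ofQS S 𝔪 y) = LocField.ofQS S (sPlaceSMul S G g 𝔪) y := by
  change locIso S G L g 𝔪 (LocField.mk S 𝔪 (asIncl S L y)) =
    LocField.mk S (sPlaceSMul S G g 𝔪) (asIncl S L y)
  rw [locIso_mk, asAut_asIncl]

lemma ofQS_single_primeOf_smul (g : G) (𝔪 : SPlace S L) :
    LocField.ofQS S (sPlaceSMul S G g 𝔪) (PL0H713.single S (PL0H713.primeOf S L 𝔪) 1) = 1 := by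
  rw [← locIso_ofQS, PL0H713.ofQS_single_primeOf, map_one]

/-- The prime below `g 𝔪` is the prime below `𝔪`. -/
lemma primeOf_smul (g : G) (𝔪 : SPlace S L) :
    PL0H713.primeOf S L (sPlaceSMul S G g 𝔪) = PL0H713.primeOf S L 𝔪 :=
  (eq_primeOf S L _ _ (ofQS_single_primeOf_smul S G L g 𝔪)).symm

lemma locIso_comp_ofZqOf (g : G) (𝔪 : SPlace S L) :
    ((locIso S G L g 𝔪 : LocField S 𝔪 →+* LocField S (sPlaceSMul S G g 𝔪))).comp
        (ofZqOf S L 𝔪 (PL0H713.primeOf S L 𝔪) (PL0H713.ofQS_single_primeOf S L 𝔪)) =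
      ofZqOf S L (sPlaceSMul S G g 𝔪) (PL0H713.primeOf S L 𝔪)
        (ofQS_single_primeOf_smul S G L g 𝔪) := by
  refine RingHom.ext fun z => ?_
  exact locIso_ofQS S G L g 𝔪 _

/-- The isomorphism `L_𝔪 ≃ L_{g 𝔪}` preserves the rings of integers. -/
lemma locIso_mem_intRing_iff (g : G) (𝔪 : SPlace S L) (x : LocField S 𝔪) :
    locIso S G L g 𝔪 x ∈ PL0H713.intRing S L (sPlaceSMul S G g 𝔪) ↔
      x ∈ PL0H713.intRing S L 𝔪 := by
  rw [mem_intRing_iff S L (sPlaceSMul S G g 𝔪) (PL0H713.primeOf S L 𝔪)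
      (ofQS_single_primeOf_smul S G L g 𝔪),
    mem_intRing_iff S L 𝔪 (PL0H713.primeOf S L 𝔪) (PL0H713.ofQS_single_primeOf S L 𝔪),
    ← locIso_comp_ofZqOf]
  constructor
  · rintro ⟨p, hp, hpx⟩
    refine ⟨p, hp, ?_⟩
    have h := Polynomial.hom_eval₂ p
      (ofZqOf S L 𝔪 (PL0H713.primeOf S L 𝔪) (PL0H713.ofQS_single_primeOf S L 𝔪))
      ((locIso S G L g 𝔪 : LocField S 𝔪 →+* LocField S (sPlaceSMul S G g 𝔪))) x
    rw [RingEquiv.coe_toRingHom] at h
    rw [← h] at hpx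
    exact (locIso S G L g 𝔪).injective (by rw [hpx, map_zero])
  · rintro ⟨p, hp, hpx⟩
    refine ⟨p, hp, ?_⟩
    have h := Polynomial.hom_eval₂ p
      (ofZqOf S L 𝔪 (PL0H713.primeOf S L 𝔪) (PL0H713.ofQS_single_primeOf S L 𝔪))
      ((locIso S G L g 𝔪 : LocField S 𝔪 →+* LocField S (sPlaceSMul S G g 𝔪))) x
    rw [RingEquiv.coe_toRingHom] at h
    rw [← h, hpx, map_zero]

/-- The isomorphism `L_𝔪 ≃ L_{g 𝔪}` preserves the normalised valuations. -/
lemma locVal_locIso (g : G) (𝔪 : SPlace S L) (x : LocField S 𝔪) :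
    locVal S L (sPlaceSMul S G g 𝔪) (locIso S G L g 𝔪 x) = locVal S L 𝔪 x := by
  haveI := isDVR_intRing S L 𝔪
  haveI := isDVR_intRing S L (sPlaceSMul S G g 𝔪)
  exact valuation_equiv_eq (PL0H713.intRing S L 𝔪) (PL0H713.intRing S L (sPlaceSMul S G g 𝔪))
    (locIso S G L g 𝔪) (locIso_mem_intRing_iff S G L g 𝔪) x

/-- **G-SIND-E.** -/
theorem ordEquiv : OrdEquivSpec := by
  intro S G L _ _ _ _ g 𝔪 j
  rw [placeOrd_apply, placeOrd_apply, coe_jRepr_apply, ← locIso_mk, locVal_locIso]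

end Fermat.Agent.S55.G.SIndH601.H241
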